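import Fermat.Agent.S17.H680.Descent
import Fermat.Agent.Lib.RR.Adeles
import Fermat.Agent.Lib.RR.H804.Modular
import Fermat.Prelude.Def_ModularCurve_ArithmeticGalois

/-!
# S17, piece G0 (helper80): genus zero

For a function field `F / K` with all places of degree one (`FF1 K F`):

* `pic0_eq_zero_of_genusFF_eq_zero` : if `genusFF K F = 0` then `Pic⁰(F) = 0`;
* `subsingleton_pic0_iff_genusFF_eq_zero`-direction `←` as an instance-free statement
  `subsingleton_pic0_of_genusFF_eq_zero`;
* `fg_fixedPoints_of_genusFF_eq_zero` : the S17 conclusion for every level `N` with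
  `genusFF ℚ̄ ℚ̄(X₀(N)) = 0`.

The remaining input for `N = 5, 7, 13` is `genusFF = 0` for these levels, i.e. the comparison of
the adelic genus `genusFF` with the Riemann–Hurwitz (Kähler) genus computed in S24.
-/

set_option autoImplicit false

noncomputable section

namespace Fermat.Agent.S17.H80

open AlgebraicCurve ModularCurve Fermat.Agent.Lib.RR

variable {K F : Type*} [Field K] [Field F] [Algebra K F]

/-- In genus zero (Riemann genus) every class of degree zero is trivial. -/
theorem pic0_eq_zero_of_genusR_eq_zero [FF1 K F] (hg : genusR K F = 0) (x : Pic0 K F) :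
    x = 0 := by
  obtain ⟨vinf⟩ := FF1.nonempty_place (K := K) (F := F)
  have key : ∀ y : Pic0 K F, H680.minRep vinf y = 0 := by
    intro y
    have h1 : H680.minDeg vinf y = 0 := by
      have := H680.minDeg_le_genus vinf y
      omega
    have h2 : Divisor.degree (H680.minRep vinf y) = 0 := by
      rw [H680.degree_minRep, h1]
      rfl
    exact H680.eq_zero_of_nonneg_of_degree_eq_zero (H680.minRep_nonneg vinf y) h2
  exact H680.minRep_injective (vinf := vinf) ((key x).trans (key 0).symm)

/-- In genus zero every class of degree zero is trivial. -/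
theorem pic0_eq_zero_of_genusFF_eq_zero [FF1 K F] (hg : genusFF K F = 0) (x : Pic0 K F) :
    x = 0 :=
  pic0_eq_zero_of_genusR_eq_zero (by rw [← genusFF_eq_genusR]; exact hg) x

/-- In genus zero `Pic⁰` is trivial. -/
theorem subsingleton_pic0_of_genusFF_eq_zero [FF1 K F] (hg : genusFF K F = 0) :
    Subsingleton (Pic0 K F) :=
  ⟨fun x y => (pic0_eq_zero_of_genusFF_eq_zero hg x).trans
    (pic0_eq_zero_of_genusFF_eq_zero hg y).symm⟩

/-- In genus zero every divisor of degree zero is principal. -/
theorem isPrincipal_of_genusFF_eq_zero [FF1 K F] (hg : genusFF K F = 0)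
    (D : Divisor K F) (hD : Divisor.degree D = 0) : Divisor.IsPrincipal D := by
  have h := pic0_eq_zero_of_genusFF_eq_zero hg (Pic0.mk ⟨D, hD⟩)
  have h2 := (QuotientAddGroup.eq_zero_iff (⟨D, hD⟩ : Divisor.degZero (K := K) (F := F))).mp h
  exact h2

/-- **G0**: Mordell–Weil for the levels of genus zero. -/
theorem fg_fixedPoints_of_genusFF_eq_zero (N : ℕ) [NeZero N]
    (hg : genusFF (AlgebraicClosure ℚ) (modularFunctionFieldBar N) = 0) :
    AddGroup.FG ↥(FixedPoints.addSubgroup
      ((AlgebraicClosure ℚ) ≃ₐ[ℚ] (AlgebraicClosure ℚ)) (JZero N)) := by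
  have : Subsingleton (JZero N) := subsingleton_pic0_of_genusFF_eq_zero hg
  have : Finite ↥(FixedPoints.addSubgroup
      ((AlgebraicClosure ℚ) ≃ₐ[ℚ] (AlgebraicClosure ℚ)) (JZero N)) := Finite.of_subsingleton
  exact AddGroup.fg_of_finite

end Fermat.Agent.S17.H80
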