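import Fermat.Agent.S17.H290.GaussDefs
import Fermat.Agent.Lib.RR.H80.Res.Bridge

/-!
# S17 / tower H / GAUSS — leaf CAN (`H290.CanonicalStatement`), from the bridge (helper80)

Every nonzero Kähler differential of an `FF1` function field over an algebraically closed field of
characteristic `0` has a divisor, of degree `2 g - 2`, `g = genusR`.
-/

set_option autoImplicit false

noncomputable section

namespace Fermat.Agent.S17.H80

open AlgebraicCurve
open Fermat.Agent.Lib.RR

variable {K F : Type*} [Field K] [Field F] [Algebra K F] [FF1 K F] [IsAlgClosed K] [CharZero K]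

/-- **Leaf CAN** of the GAUSS sub-project. -/
theorem canonicalStatement : Fermat.Agent.S17.H290.CanonicalStatement K F := by
  intro ω hω
  obtain ⟨W, hW, hcan⟩ := Fermat.Agent.Lib.RR.H80.exists_canonical_kaehler ω hω
  refine ⟨W, hW, ?_⟩
  rw [← genusFF_eq_genusR]
  exact Fermat.Agent.Lib.RR.H80.degree_eq_of_canonical hcan

/-- The hypothesis `hRH` of the GAUSS route: `deg div(dt) = 2 genusR - 2`. -/
theorem degree_div_D_eq {t : F} (ht : KaehlerDifferential.D K F t ≠ 0) {W : Divisor K F}
    (hW : ∀ v : Place K F, W v = v.ordDifferential (KaehlerDifferential.D K F t)) :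
    Divisor.degree W = 2 * (genusR K F : ℤ) - 2 := by
  rw [← genusFF_eq_genusR]
  exact Fermat.Agent.Lib.RR.H80.degree_kaehler ht hW

end Fermat.Agent.S17.H80
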